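import Mathlib
import Fermat.Agent.S14.H163.ZetaIdeal
import Fermat.Agent.LT.T7.H62.RigidSpec

/-!
# Row LT, tower T7, node T7.14 `RigidC`: leaf R0 `PlaceSumC` (helper308)

OFF-MAIN.  `placeSumC308 K : Rigid.PlaceSumC K` for every number field `K`:
`∑_v N v ^ (-s) < ∞` for `s > 1`, from the summability of the Dedekind zeta series over the nonzero
ideals (`S14/H163/ZetaIdeal.lean`, on main) and the injection `v ↦ v.asIdeal`.
-/

set_option autoImplicit false

open IsDedekindDomain NumberField

namespace Fermat.Agent.LT.T7.H308

open Fermat.Agent.LT.T7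

theorem toI0_injective308 (K : Type) [Field K] [NumberField K] :
    Function.Injective (Fermat.Agent.S14.H163.toI0 (R := 𝓞 K)) := by
  intro v w h
  have h' : v.asIdeal = w.asIdeal := congrArg Subtype.val h
  exact HeightOneSpectrum.ext h'

/-- **Leaf R0**: `∑_v N v ^ (-s)` converges for `s > 1`. -/
theorem placeSumC308 (K : Type) [Field K] [NumberField K] : Rigid.PlaceSumC K := by
  intro s hs
  have h := Fermat.Agent.S14.H163.summable_normPow (K := K) hs
  have h2 := h.comp_injective (toI0_injective308 K)
  refine h2.congr fun v => ?_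
  rfl

end Fermat.Agent.LT.T7.H308
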