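import Mathlib
import Fermat.Agent.LT.T1.Closed
import Fermat.Agent.LT.T5.H62.FrameExists
import Fermat.Agent.LT.T7.H62.RigidAut
import Fermat.Agent.LT.T7.H27.EulerLog
import Fermat.Agent.LT.T7.H362.Abel
import Fermat.Agent.LT.T7.H250.NormPos
import Fermat.Agent.LT.T7.H308.PlaceSum

/-!
# Row LT, tower T7, node T7.14 `RigidC`: INTEGRATION of the DONE leaves (helper308, 2nd-box rebuild)

OFF-MAIN.  All imported files are byte-identical copies of the owners' files:
`T1/Closed.lean` (helper54), `T5/H62/FrameExists.lean`, `T7/H62/Rigid{Spec,Pkg,Aut}.lean` (helper62),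
`T7/H27/EulerLog.lean` (helper27), `T7/H362/Abel.lean` (helper362), `T7/H250/NormPos.lean`
(helper250), `T7/H308/PlaceSum.lean` (helper308).

`RigidOpen308 K` = the leaves of `T7.RigidC K` which are still open: `StripC`, `CountC`, `OrthC`.
`rigidC_of_open308 : RigidOpen308 K → T7.RigidC K`.
-/

set_option autoImplicit false

open IsDedekindDomain NumberField MeasureTheory

namespace Fermat.Agent.LT.T7.H308

open Fermat.Agent.LT.H556.A0 Fermat.Agent.LT.T7 Fermat.Agent.LT.T7.Rigid

/-- The frame of tower T5 exists (tower T1, closed). -/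
theorem frame_exists308 (K : Type) [Field K] [NumberField K] :
    ∃ (μ : @Measure (G K) Fermat.Agent.LT.T5.instMeasurableSpaceG) (F : Set (G K)),
      Fermat.Agent.LT.T5.IsFrame μ F := by
  obtain ⟨μ, F, -, hF, -, -⟩ :=
    Fermat.Agent.LT.T5.H62.frame_exists_of_T1Out62 K ⊤ (Fermat.Agent.LT.T1.t1Out K)
  exact ⟨μ, F, hF⟩

/-- The open leaves of `T7.RigidC K`. -/
structure RigidOpen308 (K : Type) [Field K] [NumberField K] : Prop where
  strip : StripC K
  count : CountC K
  orth : OrthC K

/-- **`T7.RigidC K` from the open leaves**; closed: frame (T1), `PlaceSumC`, `EulerLogC`, `AbelC`,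
`NormPosC`. -/
theorem rigidC_of_open308 (K : Type) [Field K] [NumberField K] (h : RigidOpen308 K) :
    RigidC K :=
  rigidC_of_aut (frame_exists308 K) (placeSumC308 K)
    (Fermat.Agent.LT.T7.H27.eulerLogC27 K) (Fermat.Agent.LT.T7.H362.abelC362 K)
    h.strip h.count h.orth (Fermat.Agent.LT.T7.H250.normPosC250 K)

/-- `T7.RigidAll` from the open leaves for every number field. -/
theorem rigidAll_of_open308
    (h : ∀ (K : Type) [Field K] [NumberField K], RigidOpen308 K) : RigidAll :=
  fun K _ _ => rigidC_of_open308 K (h K)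

end Fermat.Agent.LT.T7.H308
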